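import Mathlib
import Fermat.Agent.G.Defs
import Fermat.Agent.S18.A.Top

/-!
# Program G, package G/EsTor : auxiliary lemmas for (CORE^n)

* `getc_powerSeries_const` / `getc_laurent_const` : over a field `k` with `(p : k) ≠ 0`, a
  power (Laurent) series whose `p`-th power is a nonzero constant is a constant;
* `getc_unit_of_primitive` : Gauss lemma for `𝔸((q))`: if `c · x = y` with `x, y ∈ 𝔸((q))` of
  nonzero reduction then `c ∈ 𝔸ˣ`.
-/

set_option autoImplicit false
set_option linter.unusedSectionVars false
set_option synthInstance.maxHeartbeats 400000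

noncomputable section

namespace Fermat.Agent.G

open ModularCurve AlgebraicCurve IsLocalRing Fermat.Agent.S18

/-- a power series over a field whose `p`-th power is a nonzero constant is constant
(`p` invertible in `k`) -/
theorem getc_powerSeries_const {k : Type*} [Field k] (p : ℕ) (hp : (p : k) ≠ 0)
    (f : PowerSeries k) (a : k) (ha : a ≠ 0) (h : f ^ p = PowerSeries.C a) :
    f = PowerSeries.C (PowerSeries.constantCoeff f) := by
  have hp0 : p ≠ 0 := by
    rintro rfl
    exact hp Nat.cast_zero
  set b := PowerSeries.constantCoeff f with hb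
  have hbp : b ^ p = a := by
    have := congrArg PowerSeries.constantCoeff h
    rwa [map_pow, PowerSeries.constantCoeff_C] at this
  have hb0 : b ≠ 0 := by
    intro h0
    rw [h0, zero_pow hp0] at hbp
    exact ha hbp.symm
  -- `g = f / b` has constant coefficient `1` and `g ^ p = 1`
  set g : PowerSeries k := PowerSeries.C b⁻¹ * f with hg
  have hg0 : PowerSeries.constantCoeff g = 1 := by
    rw [hg, map_mul, PowerSeries.constantCoeff_C, ← hb, inv_mul_cancel₀ hb0]
  have hgp : g ^ p = 1 := by
    rw [hg, mul_pow, h, ← map_pow, ← map_mul, ← hbp, inv_pow, inv_mul_cancel₀ (pow_ne_zero p hb0),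
      map_one]
  -- geometric sum
  set S : PowerSeries k := ∑ i ∈ Finset.range p, g ^ i with hS
  have hS0 : PowerSeries.constantCoeff S = (p : k) := by
    rw [hS, map_sum]
    simp only [map_pow, hg0, one_pow, Finset.sum_const, Finset.card_range, nsmul_eq_mul, mul_one]
  have hSne : S ≠ 0 := by
    intro h0
    rw [h0, map_zero] at hS0
    exact hp hS0.symm
  have hmul : (g - 1) * S = 0 := by
    rw [hS, mul_geom_sum, hgp, sub_self]
  have hg1 : g = 1 := by
    rcases mul_eq_zero.1 hmul with h1 | h1
    · exact sub_eq_zero.1 h1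
    · exact absurd h1 hSne
  have : f = PowerSeries.C b * g := by
    rw [hg, ← mul_assoc, ← map_mul, mul_inv_cancel₀ hb0, map_one, one_mul]
  rw [this, hg1, mul_one]

/-- a Laurent series over a field whose `p`-th power is a nonzero constant is constant
(`p` invertible in `k`) -/
theorem getc_laurent_const {k : Type*} [Field k] (p : ℕ) (hp : (p : k) ≠ 0)
    (ω : LaurentSeries k) (a : k) (ha : a ≠ 0) (h : ω ^ p = HahnSeries.C a) :
    ∃ b : k, b ≠ 0 ∧ ω = HahnSeries.C b := by
  have hp0 : p ≠ 0 := by
    rintro rfl
    exact hp Nat.cast_zero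
  have hCa : (HahnSeries.C a : LaurentSeries k) ≠ 0 := by
    intro h0
    have := congrArg (fun s : LaurentSeries k => s.coeff 0) h0
    simp only [HahnSeries.C_apply, HahnSeries.coeff_single_same, HahnSeries.coeff_zero] at this
    exact ha this
  have hω0 : ω ≠ 0 := by
    rintro rfl
    rw [zero_pow hp0] at h
    exact hCa h.symm
  -- the order of `ω` is `0`
  have hord : ω.order = 0 := by
    have h1 : (ω ^ p).order = p • ω.order := HahnSeries.order_pow ω p
    rw [h, HahnSeries.C_apply, HahnSeries.order_single ha] at h1
    have h2 : (p : ℤ) * ω.order = 0 := by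
      rw [← nsmul_eq_mul]
      exact h1.symm
    rcases mul_eq_zero.1 h2 with h3 | h3
    · exact absurd (by exact_mod_cast h3) hp0
    · exact h3
  have hω : ω = HahnSeries.ofPowerSeries ℤ k ω.powerSeriesPart := by
    conv_lhs => rw [← LaurentSeries.single_order_mul_powerSeriesPart ω, hord]
    rw [HahnSeries.single_zero_one, one_mul]
  set f := ω.powerSeriesPart with hf
  have hfp : f ^ p = PowerSeries.C a := by
    apply HahnSeries.ofPowerSeries_injective (Γ := ℤ)
    rw [PowerSeries.coe_pow, ← hω, h, HahnSeries.ofPowerSeries_C]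
  have hfc := getc_powerSeries_const p hp f a ha hfp
  refine ⟨PowerSeries.constantCoeff f, ?_, ?_⟩
  · intro h0
    rw [h0, map_zero] at hfc
    rw [hfc, map_zero] at hω
    exact hω0 hω
  · rw [hω, hfc, HahnSeries.ofPowerSeries_C, PowerSeries.constantCoeff_C]

end Fermat.Agent.G
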