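import Mathlib
import Fermat.Agent.G.EsTor.CorePowAux
import Fermat.Agent.G.GN

/-!
# Program G, package G/EsTor : (CORE^n) `get_core_pow`, the S18 core claim for `p^n`

Induction on `n` from `s18_core`: `g₁^p · u₂ = u₁`; `c · g₁ · gen v₂ = gen v₁` (`ggn_normal`);
comparing coefficients `c^p` is a unit of `𝔸` (`getc_unit_of_primitive`) and
`(red v₁ / red v₂)^p` is a nonzero constant, so `red v₁ = b · red v₂` with `b` constant
(`getc_laurent_const`, `p ≠ ℓ`); lift `b` to `ã ∈ 𝔸`, apply the induction hypothesis to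
`(v₁, ã v₂)` and extract a `p^(n+1)`-th root of the constant `(ã / c)^p` in `ℚ̄`.
-/

set_option autoImplicit false
set_option linter.unusedSectionVars false
set_option synthInstance.maxHeartbeats 400000

noncomputable section

namespace Fermat.Agent.G

open ModularCurve AlgebraicCurve IsLocalRing Fermat.Agent.S18 Fermat.Agent.S24

variable (N : ℕ) [NeZero N] {ℓ : ℕ} [Fact ℓ.Prime]
variable (A : ValuationSubring (AlgebraicClosure ℚ))

/-- `coeffMap` of a constant -/
theorem getc_coeffMap_C {R S : Type*} [CommRing R] [CommRing S] (f : R →+* S) (c : R) :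
    coeffMap f (HahnSeries.C c : LaurentSeries R) = HahnSeries.C (f c) :=
  coeffMap_single f 0 c

/-- a constant Laurent series over a domain is nonzero iff the constant is -/
theorem getc_C_ne_zero {R : Type*} [CommRing R] {c : R} (hc : c ≠ 0) :
    (HahnSeries.C c : LaurentSeries R) ≠ 0 := by
  intro h0
  have := congrArg (fun s : LaurentSeries R => s.coeff 0) h0
  simp only [HahnSeries.C_apply, HahnSeries.coeff_single_same, HahnSeries.coeff_zero] at this
  exact hc this

/-- half of the Gauss lemma: `c ∈ 𝔸`, `c · x = y`, `y` of nonzero reduction ⟹ `c` is a unit -/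
theorem getc_isUnit_of_mem (c : A) (x y : LaurentSeries A)
    (hy : coeffMap (residue A) y ≠ 0) (h : HahnSeries.C c * x = y) : IsUnit c := by
  by_contra hcu
  have hc0 : residue A c = 0 := (IsLocalRing.residue_eq_zero_iff c).2 hcu
  apply hy
  rw [← h, map_mul, getc_coeffMap_C, hc0, map_zero, zero_mul]

/-- Gauss lemma for `𝔸((q))`: if `c · x = y` over `ℚ̄` with `x, y ∈ 𝔸((q))` of nonzero reduction
then `c` is a unit of `𝔸`. -/
theorem getc_unit_of_primitive (c : AlgebraicClosure ℚ) (x y : LaurentSeries A)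
    (hx : coeffMap (residue A) x ≠ 0) (hy : coeffMap (residue A) y ≠ 0)
    (h : HahnSeries.C c * coeffMap A.subtype x = coeffMap A.subtype y) :
    ∃ d : Aˣ, ((d : A) : AlgebraicClosure ℚ) = c := by
  have hy0 : coeffMap A.subtype y ≠ 0 := by
    intro h0
    have : y = 0 := s18a_coeffMap_subtype_injective (by rw [h0, map_zero])
    exact hy (by rw [this, map_zero])
  have hc0 : c ≠ 0 := by
    rintro rfl
    rw [map_zero, zero_mul] at h
    exact hy0 h.symm
  rcases A.mem_or_inv_mem c with hc | hc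
  · have h1 : HahnSeries.C (⟨c, hc⟩ : A) * x = y := by
      apply s18a_coeffMap_subtype_injective
      rw [map_mul, getc_coeffMap_C]
      exact h
    obtain ⟨d, hd⟩ := getc_isUnit_of_mem A ⟨c, hc⟩ x y hy h1
    exact ⟨d, by rw [hd]⟩
  · have h1 : HahnSeries.C (⟨c⁻¹, hc⟩ : A) * y = x := by
      apply s18a_coeffMap_subtype_injective
      rw [map_mul, getc_coeffMap_C]
      show HahnSeries.C c⁻¹ * coeffMap A.subtype y = coeffMap A.subtype x
      rw [← h, ← mul_assoc, ← map_mul, inv_mul_cancel₀ hc0, map_one, one_mul]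
    obtain ⟨d, hd⟩ := getc_isUnit_of_mem A ⟨c⁻¹, hc⟩ y x hx h1
    refine ⟨d⁻¹, ?_⟩
    have h2 : ((d : A) : AlgebraicClosure ℚ) * (((d⁻¹ : Aˣ) : A) : AlgebraicClosure ℚ) = 1 := by
      rw [← A.coe_mul, ← Units.val_mul, mul_inv_cancel, Units.val_one, A.coe_one]
    rw [hd] at h2
    have h3 : ((⟨c⁻¹, hc⟩ : A) : AlgebraicClosure ℚ) = c⁻¹ := rfl
    rw [h3] at h2
    calc (((d⁻¹ : Aˣ) : A) : AlgebraicClosure ℚ)
        = c * (c⁻¹ * (((d⁻¹ : Aˣ) : A) : AlgebraicClosure ℚ)) := by
          rw [← mul_assoc, mul_inv_cancel₀ hc0, one_mul]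
      _ = c := by rw [h2, mul_one]

variable {N A}

/-- the underlying series of a constant of `F_ℚ̄(N)` -/
theorem getc_coe_algebraMap (c : AlgebraicClosure ℚ) :
    ((algebraMap (AlgebraicClosure ℚ) (modularFunctionFieldBar N) c : modularFunctionFieldBar N) :
      LaurentSeries (AlgebraicClosure ℚ)) = HahnSeries.C c := by
  show algebraMap (AlgebraicClosure ℚ) (LaurentSeries (AlgebraicClosure ℚ)) c = _
  rw [algebraMap_laurentSeries_eq_single]
  rfl

theorem getc_spec_ne_zero {u : LaurentSeries A} (hu : S18Good N A u)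
    (h : coeffMap (residue A) u ≠ 0) : hu.spec ≠ 0 := by
  intro h0
  exact h (congrArg Subtype.val h0)

variable (N A)

/-- (CORE^n) with the Gauss normalisation (quotient form) as an explicit hypothesis -/
theorem getc_core_pow_of_gn
    (hGN : ∀ f : modularFunctionFieldBar N, f ≠ 0 →
      ∃ (c : AlgebraicClosure ℚ) (v₁ v₂ : LaurentSeries A) (k₁ : S18Good N A v₁)
        (k₂ : S18Good N A v₂), c ≠ 0 ∧ k₁.spec ≠ 0 ∧ k₂.spec ≠ 0 ∧
          algebraMap (AlgebraicClosure ℚ) (modularFunctionFieldBar N) c * f * k₂.gen = k₁.gen)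
    (hℓN : ¬ ℓ ∣ N) (hA : A.LiesOverPrime ℓ) (p : ℕ) (hp : p.Prime)
    (hpℓ : p ≠ ℓ) (n : ℕ)
    (u₁ u₂ : LaurentSeries A) (h₁ : S18Good N A u₁) (h₂ : S18Good N A u₂)
    (hred : coeffMap (residue A) u₁ = coeffMap (residue A) u₂)
    (hne : coeffMap (residue A) u₁ ≠ 0)
    (hdiv : ∀ P : Place (AlgebraicClosure ℚ) (modularFunctionFieldBar N),
      ((p ^ n : ℕ) : ℤ) ∣ P.ord h₁.gen - P.ord h₂.gen) :
    ∃ g : modularFunctionFieldBar N, g ^ (p ^ n) * h₂.gen = h₁.gen := by
  induction n generalizing u₁ u₂ with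
  | zero =>
    have hne₂ : coeffMap (residue A) u₂ ≠ 0 := hred ▸ hne
    have hg₂ : h₂.gen ≠ 0 := h₂.gen_ne_zero (getc_spec_ne_zero h₂ hne₂)
    exact ⟨h₁.gen / h₂.gen, by rw [pow_zero, pow_one, div_mul_cancel₀ _ hg₂]⟩
  | succ n ih =>
    have hne₂ : coeffMap (residue A) u₂ ≠ 0 := hred ▸ hne
    have hg₁ : h₁.gen ≠ 0 := h₁.gen_ne_zero (getc_spec_ne_zero h₁ hne)
    have hg₂ : h₂.gen ≠ 0 := h₂.gen_ne_zero (getc_spec_ne_zero h₂ hne₂)
    -- the characteristic of `k` is `ℓ`, so `p` is invertible in `k`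
    have hpk : ((p : ℕ) : ResidueField A) ≠ 0 := by
      haveI : CharP (ResidueField A) ℓ := s18ac_charP A hA
      intro h0
      rw [CharP.cast_eq_zero_iff (ResidueField A) ℓ] at h0
      exact hpℓ ((Nat.prime_dvd_prime_iff_eq (Fact.out : ℓ.Prime) hp).1 h0).symm
    -- step 1: the `p`-th root from the S18 core claim
    have hdiv' : ∀ P : Place (AlgebraicClosure ℚ) (modularFunctionFieldBar N),
        (p : ℤ) ∣ P.ord h₁.gen - P.ord h₂.gen := by
      intro P
      refine dvd_trans ?_ (hdiv P)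
      rw [pow_succ]
      exact_mod_cast Dvd.intro_left (p ^ n) rfl
    obtain ⟨g₁, hg₁eq⟩ := s18_core N A hℓN hA p hp hpℓ u₁ u₂ h₁ h₂ hred hne hdiv'
    have hg₁ne : g₁ ≠ 0 := by
      rintro rfl
      rw [zero_pow hp.ne_zero, zero_mul] at hg₁eq
      exact hg₁ hg₁eq.symm
    -- step 2: Gauss normalisation of `g₁`
    obtain ⟨c, v₁, v₂, k₁, k₂, hc, hspec₁, hspec₂, hgn⟩ := hGN g₁ hg₁ne
    have hnv₁ : coeffMap (residue A) v₁ ≠ 0 := fun h0 => hspec₁ (Subtype.ext h0)
    have hnv₂ : coeffMap (residue A) v₂ ≠ 0 := fun h0 => hspec₂ (Subtype.ext h0)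
    have hkg₁ : k₁.gen ≠ 0 := k₁.gen_ne_zero hspec₁
    have hkg₂ : k₂.gen ≠ 0 := k₂.gen_ne_zero hspec₂
    have hcF : algebraMap (AlgebraicClosure ℚ) (modularFunctionFieldBar N) c ≠ 0 := by
      rw [Ne, map_eq_zero]
      exact hc
    -- step 3: `c ^ p` is a unit of `𝔸`: `c^p · (v₂^p u₁) = v₁^p u₂`
    have hx : coeffMap (residue A) (v₁ ^ p * u₂) ≠ 0 := by
      rw [map_mul, map_pow]
      exact mul_ne_zero (pow_ne_zero p hnv₁) hne₂
    have hy : coeffMap (residue A) (v₂ ^ p * u₁) ≠ 0 := by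
      rw [map_mul, map_pow]
      exact mul_ne_zero (pow_ne_zero p hnv₂) hne
    have hF : algebraMap (AlgebraicClosure ℚ) (modularFunctionFieldBar N) (c ^ p) *
        (k₂.gen ^ p * h₁.gen) = k₁.gen ^ p * h₂.gen := by
      rw [← hgn, ← hg₁eq, map_pow]
      ring
    have hcx : HahnSeries.C (c ^ p) * coeffMap A.subtype (v₂ ^ p * u₁) =
        coeffMap A.subtype (v₁ ^ p * u₂) := by
      have h0 := congrArg (Subtype.val) hF
      have h1 : (((algebraMap (AlgebraicClosure ℚ) (modularFunctionFieldBar N) (c ^ p) *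
          (k₂.gen ^ p * h₁.gen) : modularFunctionFieldBar N)) :
            LaurentSeries (AlgebraicClosure ℚ)) =
          HahnSeries.C (c ^ p) * (coeffMap A.subtype v₂ ^ p * coeffMap A.subtype u₁) := by
        rw [MulMemClass.coe_mul, MulMemClass.coe_mul, SubmonoidClass.coe_pow,
          getc_coe_algebraMap]
        rfl
      have h2 : (((k₁.gen ^ p * h₂.gen : modularFunctionFieldBar N)) :
            LaurentSeries (AlgebraicClosure ℚ)) =
          coeffMap A.subtype v₁ ^ p * coeffMap A.subtype u₂ := by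
        rw [MulMemClass.coe_mul, SubmonoidClass.coe_pow]
        rfl
      rw [h1, h2] at h0
      rw [map_mul (coeffMap A.subtype), map_pow (coeffMap A.subtype),
        map_mul (coeffMap A.subtype), map_pow (coeffMap A.subtype)]
      exact h0
    obtain ⟨d, hd⟩ := getc_unit_of_primitive A (c ^ p) (v₂ ^ p * u₁) (v₁ ^ p * u₂) hy hx hcx
    -- step 4: `(red v₁ / red v₂)^p` is a nonzero constant
    have hdx : HahnSeries.C (d : A) * (v₂ ^ p * u₁) = v₁ ^ p * u₂ := by
      apply s18a_coeffMap_subtype_injective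
      rw [map_mul, getc_coeffMap_C]
      show HahnSeries.C ((d : A) : AlgebraicClosure ℚ) * _ = _
      rw [hd]
      exact hcx
    have hdres : residue A (d : A) ≠ 0 := by
      intro h0
      exact ((IsLocalRing.residue_eq_zero_iff (d : A)).1 h0) d.isUnit
    have hpow : (coeffMap (residue A) v₁ / coeffMap (residue A) v₂) ^ p =
        HahnSeries.C (residue A (d : A)) := by
      have h0 := congrArg (coeffMap (residue A)) hdx
      rw [map_mul, map_mul, map_mul, map_pow, map_pow, getc_coeffMap_C, hred, ← mul_assoc] at h0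
      have h1 : HahnSeries.C (residue A (d : A)) * coeffMap (residue A) v₂ ^ p =
          coeffMap (residue A) v₁ ^ p := mul_right_cancel₀ hne₂ h0
      rw [div_pow, ← h1, mul_div_assoc, div_self (pow_ne_zero p hnv₂), mul_one]
    obtain ⟨b, hb0, hb⟩ := getc_laurent_const p hpk
      (coeffMap (residue A) v₁ / coeffMap (residue A) v₂) (residue A (d : A)) hdres hpow
    -- step 5: lift the constant and apply the induction hypothesis to `(v₁, ã v₂)`
    obtain ⟨a, rfl⟩ := IsLocalRing.residue_surjective b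
    have hka : S18Good N A (HahnSeries.C a * v₂) := (S18Good.const a).mul k₂
    have hred' : coeffMap (residue A) v₁ = coeffMap (residue A) (HahnSeries.C a * v₂) := by
      rw [map_mul, getc_coeffMap_C, ← hb, div_mul_cancel₀ _ hnv₂]
    have ha0 : (a : AlgebraicClosure ℚ) ≠ 0 := by
      intro h0
      apply hb0
      have : a = 0 := Subtype.ext h0
      rw [this, map_zero]
    have haF : algebraMap (AlgebraicClosure ℚ) (modularFunctionFieldBar N)
        (a : AlgebraicClosure ℚ) ≠ 0 := by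
      rw [Ne, map_eq_zero]
      exact ha0
    have hkagen : hka.gen = algebraMap (AlgebraicClosure ℚ) (modularFunctionFieldBar N)
        (a : AlgebraicClosure ℚ) * k₂.gen := by
      show ((S18Good.const (N := N) a).mul k₂).gen = _
      rw [S18Good.gen_mul (S18Good.const (N := N) a) k₂, S18Good.gen_const]
    have hdiv₃ : ∀ P : Place (AlgebraicClosure ℚ) (modularFunctionFieldBar N),
        ((p ^ n : ℕ) : ℤ) ∣ P.ord k₁.gen - P.ord hka.gen := by
      intro P
      have e0 : P.ord k₁.gen = P.ord g₁ + P.ord k₂.gen := by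
        rw [← hgn, P.ord_mul (mul_ne_zero hcF hg₁ne) hkg₂, P.ord_mul hcF hg₁ne,
          PlaceOrd.ord_algebraMap, zero_add]
      have e1 : P.ord h₁.gen = (p : ℤ) * P.ord g₁ + P.ord h₂.gen := by
        rw [← hg₁eq, P.ord_mul (pow_ne_zero p hg₁ne) hg₂, ← zpow_natCast, P.ord_zpow]
      have e2 := hdiv P
      rw [e1, add_sub_cancel_right, pow_succ, Nat.cast_mul, mul_comm] at e2
      have e3 : ((p ^ n : ℕ) : ℤ) ∣ P.ord g₁ :=
        (mul_dvd_mul_iff_left (by exact_mod_cast hp.ne_zero)).1 e2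
      rw [hkagen, P.ord_mul haF hkg₂, PlaceOrd.ord_algebraMap, zero_add, e0,
        add_sub_cancel_right]
      exact e3
    obtain ⟨g₂, hg₂eq⟩ := ih v₁ (HahnSeries.C a * v₂) k₁ hka hred' hnv₁ hdiv₃
    rw [hkagen] at hg₂eq
    -- `g₁ = (ã / c) · g₂^(p^n)`
    have hg₁' : g₁ = algebraMap (AlgebraicClosure ℚ) (modularFunctionFieldBar N)
        ((a : AlgebraicClosure ℚ) / c) * g₂ ^ (p ^ n) := by
      have h0 : algebraMap (AlgebraicClosure ℚ) (modularFunctionFieldBar N) c * g₁ * k₂.gen =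
          g₂ ^ p ^ n * (algebraMap (AlgebraicClosure ℚ) (modularFunctionFieldBar N)
            (a : AlgebraicClosure ℚ) * k₂.gen) := by rw [hgn, hg₂eq]
      have h1 : algebraMap (AlgebraicClosure ℚ) (modularFunctionFieldBar N) c * g₁ =
          g₂ ^ p ^ n * algebraMap (AlgebraicClosure ℚ) (modularFunctionFieldBar N)
            (a : AlgebraicClosure ℚ) := by
        apply mul_right_cancel₀ hkg₂
        rw [h0, mul_assoc]
      rw [map_div₀, div_mul_eq_mul_div, eq_div_iff hcF, mul_comm g₁, h1, mul_comm]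
    -- step 6: a `p^(n+1)`-th root of the constant `(ã / c)^p`
    obtain ⟨b', hb'⟩ := IsAlgClosed.exists_pow_nat_eq (((a : AlgebraicClosure ℚ) / c) ^ p)
      (pow_pos hp.pos (n + 1))
    refine ⟨algebraMap (AlgebraicClosure ℚ) (modularFunctionFieldBar N) b' * g₂, ?_⟩
    rw [← hg₁eq, hg₁', mul_pow, ← map_pow, hb', pow_succ, pow_mul, map_pow, mul_pow]

/-- (CORE^n) the S18 core claim for `p^n`. -/
theorem get_core_pow (hℓN : ¬ ℓ ∣ N) (hA : A.LiesOverPrime ℓ) (p : ℕ) (hp : p.Prime)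
    (hpℓ : p ≠ ℓ) (n : ℕ)
    (u₁ u₂ : LaurentSeries A) (h₁ : S18Good N A u₁) (h₂ : S18Good N A u₂)
    (hred : coeffMap (residue A) u₁ = coeffMap (residue A) u₂)
    (hne : coeffMap (residue A) u₁ ≠ 0)
    (hdiv : ∀ P : Place (AlgebraicClosure ℚ) (modularFunctionFieldBar N),
      ((p ^ n : ℕ) : ℤ) ∣ P.ord h₁.gen - P.ord h₂.gen) :
    ∃ g : modularFunctionFieldBar N, g ^ (p ^ n) * h₂.gen = h₁.gen :=
  getc_core_pow_of_gn N A (fun f hf => ggn_normal N A hℓN hA f hf) hℓN hA p hp hpℓ n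
    u₁ u₂ h₁ h₂ hred hne hdiv

end Fermat.Agent.G
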