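import Mathlib

/-!
# Program G, package G/EsTor : shared definitions

`getDecHom`, `getDecRes` : the action of the decomposition group of `A ⊆ ℚ̄` on `𝔸` and on its
residue field, as ring homomorphisms (moved VERBATIM out of `G/EsTor/Spec.lean` so that the leaf
files of the package can state their theorems without importing the Spec).
-/

set_option autoImplicit false

noncomputable section

namespace Fermat.Agent.G

open IsLocalRing

variable (A : ValuationSubring (AlgebraicClosure ℚ))

/-- the action of the decomposition group on `𝔸` -/
def getDecHom (σ : A.decompositionSubgroup ℚ) : A →+* A :=
  MulSemiringAction.toRingHom (A.decompositionSubgroup ℚ) A σ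

/-- the action of the decomposition group on the residue field -/
def getDecRes (σ : A.decompositionSubgroup ℚ) : ResidueField A →+* ResidueField A :=
  MulSemiringAction.toRingHom (A.decompositionSubgroup ℚ) (ResidueField A) σ

end Fermat.Agent.G
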