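import Mathlib
import Fermat.Agent.G.EsTor.Defs
import Fermat.Agent.S18.A.Defs
import Fermat.Agent.S18.Core.Descend

/-!
# Program G, package G/EsTor, leaves (GAL1), (GAL2) (+ a private copy of (GAL3))

The decomposition group `D_A` of `A ⊆ ℚ̄` acts coefficientwise on `𝔸((q))`:

* `getl_good_dec`  (= `get_good_dec` of `G/EsTor/Spec.lean`, VERBATIM): `σ u` is good if `u` is;
* `getl_gen_dec`   (= `get_gen_dec`, VERBATIM): on the generic fibre `σ` acts through
  `arithmeticGalois`;
* `getl_spec_dec`  (= `get_spec_dec`, VERBATIM): on the special fibre `σ` acts through its image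
  in `Aut k`.
-/

set_option autoImplicit false
set_option linter.unusedSectionVars false
set_option synthInstance.maxHeartbeats 400000

noncomputable section

namespace Fermat.Agent.G

open ModularCurve AlgebraicCurve IsLocalRing Fermat.Agent.S18

variable (N : ℕ) [NeZero N]
variable (A : ValuationSubring (AlgebraicClosure ℚ))

/-- `σ` on `𝔸` is the restriction of `σ` on `ℚ̄`. -/
theorem getl_subtype_dec (σ : A.decompositionSubgroup ℚ) (a : A) :
    A.subtype (getDecHom A σ a) =
      ((σ : AlgebraicClosure ℚ ≃ₐ[ℚ] AlgebraicClosure ℚ) : AlgebraicClosure ℚ →+* AlgebraicClosure ℚ)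
        (A.subtype a) := rfl

/-- coefficientwise: the inclusion `𝔸((q)) → ℚ̄((q))` intertwines `σ` and `σ`. -/
theorem getl_coeffMap_subtype (σ : A.decompositionSubgroup ℚ) (u : LaurentSeries A) :
    coeffMap A.subtype (coeffMap (getDecHom A σ) u) =
      coeffMap ((σ : AlgebraicClosure ℚ ≃ₐ[ℚ] AlgebraicClosure ℚ) :
        AlgebraicClosure ℚ →+* AlgebraicClosure ℚ) (coeffMap A.subtype u) := by
  rw [coeffMap_coeffMap, coeffMap_coeffMap]
  exact coeffMap_congr (RingHom.ext fun a => getl_subtype_dec A σ a) u

/-- (GAL3) on the special fibre `σ` acts through its image in `Aut k` (coefficientwise). -/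
theorem getl_spec_dec (σ : A.decompositionSubgroup ℚ) (u : LaurentSeries A) :
    coeffMap (residue A) (coeffMap (getDecHom A σ) u) =
      coeffMap (getDecRes A σ) (coeffMap (residue A) u) := by
  rw [coeffMap_coeffMap, coeffMap_coeffMap]
  exact coeffMap_congr (RingHom.ext fun a => rfl) u

/-- (GAL1) the decomposition group preserves good integral elements. -/
theorem getl_good_dec (σ : A.decompositionSubgroup ℚ) {u : LaurentSeries A}
    (hu : S18Good N A u) : S18Good N A (coeffMap (getDecHom A σ) u) := by
  refine ⟨?_, ?_⟩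
  · rw [getl_coeffMap_subtype]
    exact coeffMap_mem_laurentBaseChange _ hu.1
  · rw [getl_spec_dec]
    exact s18dd_coeffMap_mem_full (getDecRes A σ) N hu.2

/-- (GAL2) on the generic fibre `σ` acts through `arithmeticGalois` (coefficientwise). -/
theorem getl_gen_dec (σ : A.decompositionSubgroup ℚ) {u : LaurentSeries A}
    (hu : S18Good N A u) :
    (getl_good_dec N A σ hu).gen =
      arithmeticGalois (modularFunctionFieldFull N)
        ((σ : AlgebraicClosure ℚ ≃ₐ[ℚ] AlgebraicClosure ℚ)) • hu.gen := by
  apply Subtype.ext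
  rw [coe_arithmeticGalois_smul]
  exact getl_coeffMap_subtype A σ u

end Fermat.Agent.G
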