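import Mathlib
import Fermat.Agent.G.Defs
import Fermat.Agent.S18.A.Spec
import Fermat.Agent.G.GN
import Fermat.Agent.G.EsTor.Defs
import Fermat.Agent.G.EsTor.Gal
import Fermat.Agent.G.Conj.Formal
import Fermat.Agent.G.EsTor.CorePow

/-!
# Program G, package G/EsTor : the Eichler–Shimura relation and unramifiedness ON TORSION of
`J₀(N)(ℚ̄)`, from the S18 core claim, at the level of FUNCTIONS (all leaves PROVED; this file is now only a hub)

For `x ∈ J[p^n]` write `x = [D]`, `p^n D = div f`, `c · f · u₂ = u₁` with `u₁, u₂ ∈ 𝔸((q))` good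
(`ggn_normal`).  For `σ` in the decomposition group of `A`, `σ u` is good with reduction
`σ̄ (ū)` (coefficientwise; `get_good_dec`, `get_spec_dec`).
* inertia: `σ̄ = id`, so `σ u ≡ u`, and `p^n ∣ ord_P (σ u / u)`; by `get_core_pow`
  `σ u / u = g^(p^n)`, hence `σ D - D = div g`.
* Frobenius: `u₁ := σ² u · u^ℓ`, `u₂ := T (σ u)` (`gcj_norm_congr`, package G/Conj):
  `ū₂ = (φ ū)(q^ℓ) · φ² ū = ū^ℓ · φ² ū = ū₁` (`get_qExpand_frobenius`), and
  `ord_P u₁ - ord_P u₂ = p^n (σ² D + ℓ D - T_ℓ σ D)(P)` (`gff_hecke_class`, package G/FF).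
-/

set_option autoImplicit false
set_option linter.unusedSectionVars false
set_option synthInstance.maxHeartbeats 400000

noncomputable section

namespace Fermat.Agent.G

open ModularCurve AlgebraicCurve IsLocalRing Fermat.Agent.S18

variable (N : ℕ) [NeZero N] {ℓ : ℕ} [Fact ℓ.Prime]
variable (A : ValuationSubring (AlgebraicClosure ℚ))

/-! ### Definitions : `getDecHom`, `getDecRes` are in `G/EsTor/Defs.lean` -/

/-! ### Leaves -/

/-- (GN) GAUSS NORMALISATION = helper6's `ggn_normal` (file `G/GN.lean`, PROVED): every nonzero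
`f ∈ F_ℚ̄(N)` is, up to a constant, a QUOTIENT of two good integral elements with nonzero
reductions (`ℓ ∤ N`). -/
theorem get_gn_normal (hℓN : ¬ ℓ ∣ N) (hA : A.LiesOverPrime ℓ)
    (f : modularFunctionFieldBar N) (hf : f ≠ 0) :
    ∃ (c : AlgebraicClosure ℚ) (u₁ u₂ : LaurentSeries A) (h₁ : S18Good N A u₁)
      (h₂ : S18Good N A u₂), c ≠ 0 ∧ h₁.spec ≠ 0 ∧ h₂.spec ≠ 0 ∧
        algebraMap (AlgebraicClosure ℚ) (modularFunctionFieldBar N) c * f * h₂.gen = h₁.gen :=
  ggn_normal N A hℓN hA f hf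

/-- (GAL1) the decomposition group preserves good integral elements. -/
theorem get_good_dec (σ : A.decompositionSubgroup ℚ) {u : LaurentSeries A}
    (hu : S18Good N A u) : S18Good N A (coeffMap (getDecHom A σ) u) :=
  getl_good_dec N A σ hu

/-- (GAL2) on the generic fibre `σ` acts through `arithmeticGalois` (coefficientwise). -/
theorem get_gen_dec (σ : A.decompositionSubgroup ℚ) {u : LaurentSeries A}
    (hu : S18Good N A u) :
    (get_good_dec N A σ hu).gen =
      arithmeticGalois (modularFunctionFieldFull N)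
        ((σ : AlgebraicClosure ℚ ≃ₐ[ℚ] AlgebraicClosure ℚ)) • hu.gen :=
  getl_gen_dec N A σ hu

/-- (GAL3) on the special fibre `σ` acts through its image in `Aut k` (coefficientwise). -/
theorem get_spec_dec (σ : A.decompositionSubgroup ℚ) (u : LaurentSeries A) :
    coeffMap (residue A) (coeffMap (getDecHom A σ) u) =
      coeffMap (getDecRes A σ) (coeffMap (residue A) u) :=
  getl_spec_dec A σ u

/-- (FROB) in characteristic `ℓ`: `(φ w)(q^ℓ) = w^ℓ`, `φ` the coefficientwise Frobenius. -/
theorem get_qExpand_frobenius {k : Type*} [Field k] (φ : k →+* k)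
    (hφ : ∀ x : k, φ x = x ^ ℓ) [CharP k ℓ] (w : LaurentSeries k) :
    qExpand k ℓ (coeffMap φ w) = w ^ ℓ := by
  have hφ' : φ = frobenius k ℓ := RingHom.ext fun x => by rw [hφ, frobenius_def]
  rw [hφ']
  exact (gcjf_pow_char k ℓ w).symm

/-! (CORE^n) `get_core_pow` : PROVED by helper14 in `G/EsTor/CorePow.lean` (imported above). -/

end Fermat.Agent.G
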