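import Mathlib
import Fermat.Agent.G.Defs
import Fermat.Agent.G.FF.Main
import Fermat.Agent.G.Conj.Main
import Fermat.Agent.G.EsTor.Spec
import Fermat.Agent.S18.A.Top

/-!
# Program G, package G/EsTor : ASSEMBLY of `g_es_torsion` from the leaves
(`ggn_normal`, `get_good_dec`, `get_gen_dec`, `get_spec_dec`, `get_qExpand_frobenius`,
`get_core_pow`) and the two imported interfaces `gff_hecke_class` (G/FF), `gcj_norm_congr` (G/Conj).
-/

set_option autoImplicit false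
set_option linter.unusedSectionVars false
set_option synthInstance.maxHeartbeats 400000

noncomputable section

namespace Fermat.Agent.G

open ModularCurve AlgebraicCurve IsLocalRing Fermat.Agent.S18

variable (N : ℕ) [NeZero N]

local notation "Qb" => AlgebraicClosure ℚ
local notation "FN" => modularFunctionFieldBar N

/-! ### Divisor classes and functions -/

/-- a class killed by `m` comes with a function. -/
theorem getm_exists_fun (D : Divisor.degZero (K := Qb) (F := FN)) (m : ℕ)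
    (h : m • (Pic0.mk D) = 0) :
    ∃ f : FN, f ≠ 0 ∧ ∀ P : Place Qb FN, (m : ℤ) * (D : Divisor Qb FN) P = P.ord f := by
  have h0 : Pic0.mk (m • D) = 0 := by rw [← h]; rfl
  have h1 := (QuotientAddGroup.eq_zero_iff _).mp h0
  rw [AddSubgroup.mem_addSubgroupOf] at h1
  obtain ⟨f, hf, hD⟩ := h1
  refine ⟨f, hf, fun P => ?_⟩
  rw [← hD P]
  simp

/-- a degree zero divisor which is the divisor of a function has trivial class. -/
theorem getm_mk_eq_zero (E : Divisor.degZero (K := Qb) (F := FN)) (g : FN) (hg : g ≠ 0)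
    (h : ∀ P : Place Qb FN, (E : Divisor Qb FN) P = P.ord g) : Pic0.mk E = 0 := by
  apply (QuotientAddGroup.eq_zero_iff _).mpr
  rw [AddSubgroup.mem_addSubgroupOf]
  exact ⟨g, hg, h⟩

theorem getm_ord_const_mul (c : Qb) (x : FN) (hc : c ≠ 0) (hx : x ≠ 0) (P : Place Qb FN) :
    P.ord (algebraMap Qb FN c * x) = P.ord x := by
  have hc' : algebraMap Qb FN c ≠ 0 := by simpa using hc
  rw [P.ord_mul hc' hx, Fermat.Agent.S24.PlaceOrd.ord_algebraMap, zero_add]

theorem getm_ord_pow (x : FN) (n : ℕ) (P : Place Qb FN) : P.ord (x ^ n) = (n : ℤ) * P.ord x := by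
  rw [← zpow_natCast, P.ord_zpow]

/-- the key criterion: a class `[E]` with `p^n E = div (u₁ / u₂)`, `ū₁ = ū₂ ≠ 0`, is trivial. -/
theorem getm_zero_of_good {ℓ : ℕ} [Fact ℓ.Prime] (A : ValuationSubring Qb)
    (hℓN : ¬ ℓ ∣ N) (hA : A.LiesOverPrime ℓ) (p : ℕ) (hp : p.Prime) (hpℓ : p ≠ ℓ) (n : ℕ)
    (E : Divisor.degZero (K := Qb) (F := FN))
    (u₁ u₂ : LaurentSeries A) (h₁ : S18Good N A u₁) (h₂ : S18Good N A u₂)
    (hred : coeffMap (residue A) u₁ = coeffMap (residue A) u₂)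
    (hne : coeffMap (residue A) u₁ ≠ 0)
    (hE : ∀ P : Place Qb FN,
      ((p ^ n : ℕ) : ℤ) * (E : Divisor Qb FN) P = P.ord h₁.gen - P.ord h₂.gen) :
    Pic0.mk E = 0 := by
  obtain ⟨g, hg⟩ := get_core_pow N A hℓN hA p hp hpℓ n u₁ u₂ h₁ h₂ hred hne
    (fun P => ⟨_, (hE P).symm⟩)
  have hs₁ : h₁.spec ≠ 0 := fun h0 => hne (congrArg Subtype.val h0)
  have hs₂ : h₂.spec ≠ 0 := fun h0 => hne (by rw [hred]; exact congrArg Subtype.val h0)
  have hg₁ := h₁.gen_ne_zero hs₁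
  have hg₂ := h₂.gen_ne_zero hs₂
  have hpn : p ^ n ≠ 0 := pow_ne_zero _ hp.ne_zero
  have hg0 : g ≠ 0 := by
    rintro rfl
    rw [zero_pow hpn, zero_mul] at hg
    exact hg₁ hg.symm
  refine getm_mk_eq_zero N E g hg0 fun P => ?_
  have e1 : P.ord (g ^ (p ^ n) * h₂.gen) = P.ord h₁.gen := by rw [hg]
  rw [P.ord_mul (pow_ne_zero _ hg0) hg₂, getm_ord_pow] at e1
  have e2 := hE P
  have hpn' : ((p ^ n : ℕ) : ℤ) ≠ 0 := by exact_mod_cast hpn
  have e3 : ((p ^ n : ℕ) : ℤ) * (E : Divisor Qb FN) P = ((p ^ n : ℕ) : ℤ) * P.ord g := by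
    linarith
  exact mul_left_cancel₀ hpn' e3

/-! ### Galois transport -/

/-- the semilinear automorphism of `F_ℚ̄(N)` attached to `σ` -/
abbrev getAut (σ : Qb ≃ₐ[ℚ] Qb) : SemilinearAut Qb FN :=
  arithmeticGalois (modularFunctionFieldFull N) σ

theorem getm_smul_mk (σ : Qb ≃ₐ[ℚ] Qb) (D : Divisor.degZero (K := Qb) (F := FN)) :
    σ • (Pic0.mk D : JZero N) = Pic0.mk (SemilinearAut.degZeroSMulHom (getAut N σ) D) := rfl

theorem getm_smul_pair (σ : Qb ≃ₐ[ℚ] Qb) (D : Divisor.degZero (K := Qb) (F := FN)) (m : ℤ)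
    (f : FN) (h : ∀ P : Place Qb FN, m * (D : Divisor Qb FN) P = P.ord f) :
    ∀ P : Place Qb FN,
      m * ((SemilinearAut.degZeroSMulHom (getAut N σ) D : Divisor.degZero (K := Qb) (F := FN)) :
        Divisor Qb FN) P = P.ord (getAut N σ • f) := by
  intro P
  rw [SemilinearAut.coe_degZeroSMulHom, SemilinearAut.divisor_smul_apply, h]
  have := SemilinearAut.ord_smul (getAut N σ) ((getAut N σ)⁻¹ • P) f
  rw [smul_inv_smul] at this
  exact this.symm

theorem getm_smul_const_mul (σ : Qb ≃ₐ[ℚ] Qb) (c : Qb) (x : FN) :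
    getAut N σ • (algebraMap Qb FN c * x) = algebraMap Qb FN (σ c) * (getAut N σ • x) := by
  rw [smul_mul', SemilinearAut.smul_algebraMap]
  rfl

theorem getm_smul_ne_zero (σ : Qb ≃ₐ[ℚ] Qb) (x : FN) (hx : x ≠ 0) : getAut N σ • x ≠ 0 := by
  intro h
  apply hx
  have := congrArg (fun y => (getAut N σ)⁻¹ • y) h
  simpa using this

/-! ### The Hecke operator on constants -/

theorem getm_hecke_const_ord (ℓ : ℕ) [NeZero ℓ] (c : Qb) (P : Place Qb FN) :
    P.ord (gHeckeFun N ℓ (algebraMap Qb FN c)) = 0 := by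
  have h1 : heckeBetaBar Qb N ℓ (algebraMap Qb FN c) =
      algebraMap Qb (modularFunctionFieldBar (N * ℓ)) c := (heckeBetaBar Qb N ℓ).commutes c
  have h2 : gHeckeFun N ℓ (algebraMap Qb FN c) =
      (algebraMap Qb FN c) ^ (letI := algebraAlong (heckeAlphaBar Qb N ℓ)
        Module.finrank FN (modularFunctionFieldBar (N * ℓ))) := by
    letI := algebraAlong (heckeAlphaBar Qb N ℓ)
    haveI := isScalarTower_along (heckeAlphaBar Qb N ℓ)
    rw [gHeckeFun_apply]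
    show gNormAlpha N ℓ (heckeBetaBar Qb N ℓ (algebraMap Qb FN c)) = _
    rw [h1, IsScalarTower.algebraMap_apply Qb FN (modularFunctionFieldBar (N * ℓ)) c]
    exact Algebra.norm_algebraMap (algebraMap Qb FN c)
  rw [h2, getm_ord_pow, Fermat.Agent.S24.PlaceOrd.ord_algebraMap, mul_zero]

/-! ### `Pic0.mk` as a homomorphism -/

/-- `Pic0.mk` as an additive homomorphism -/
def getMkHom : Divisor.degZero (K := Qb) (F := FN) →+ JZero N :=
  QuotientAddGroup.mk' _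

theorem getMkHom_apply (D : Divisor.degZero (K := Qb) (F := FN)) :
    getMkHom N D = Pic0.mk D := rfl

/-! ### Orders of a Gauss-normalised function -/

theorem getm_ord_of_normal {A : ValuationSubring Qb} (f : FN) (hf : f ≠ 0) (c : Qb)
    (u₁ u₂ : LaurentSeries A) (h₁ : S18Good N A u₁) (h₂ : S18Good N A u₂) (hc : c ≠ 0)
    (hs₂ : h₂.spec ≠ 0) (h : algebraMap Qb FN c * f * h₂.gen = h₁.gen) (P : Place Qb FN) :
    P.ord f = P.ord h₁.gen - P.ord h₂.gen := by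
  have hg₂ := h₂.gen_ne_zero hs₂
  have hc' : algebraMap Qb FN c ≠ 0 := by simpa using hc
  rw [← h, P.ord_mul (mul_ne_zero hc' hf) hg₂, getm_ord_const_mul N c f hc hf]
  ring

/-! ### Inertia -/

theorem getm_getDecRes_of_mem_inertia (A : ValuationSubring Qb) (τ : A.decompositionSubgroup ℚ)
    (hτ : τ ∈ A.inertiaSubgroup ℚ) : getDecRes A τ = RingHom.id _ := by
  ext x
  have h1 : MulSemiringAction.toRingAut (A.decompositionSubgroup ℚ) (ResidueField A) τ = 1 := hτ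
  have h2 := congrArg (fun e : RingAut (ResidueField A) => e x) h1
  exact h2

theorem getm_inertia {ℓ : ℕ} [Fact ℓ.Prime] (A : ValuationSubring Qb)
    (hℓN : ¬ ℓ ∣ N) (hA : A.LiesOverPrime ℓ) (p : ℕ) (hp : p.Prime) (hpℓ : p ≠ ℓ)
    (σ : Qb ≃ₐ[ℚ] Qb) (hσ : σ ∈ A.inertiaSubgroupIn ℚ) (x : JZero N) (n : ℕ)
    (hx : p ^ n • x = 0) : σ • x = x := by
  obtain ⟨τ, hτ, rfl⟩ := hσ
  obtain ⟨D, rfl⟩ := Pic0.mk_surjective x
  obtain ⟨f, hf, hD⟩ := getm_exists_fun N D (p ^ n) hx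
  obtain ⟨c, u₁, u₂, h₁, h₂, hc, hs₁, hs₂, hcf⟩ := get_gn_normal N A hℓN hA f hf
  set g := getAut N ((A.decompositionSubgroup ℚ).subtype τ) with hgdef
  -- the conjugate pair
  have hD' := getm_smul_pair N ((A.decompositionSubgroup ℚ).subtype τ) D _ f hD
  -- Gauss normal form of the conjugate
  have k₁ := get_good_dec N A τ h₁
  have k₂ := get_good_dec N A τ h₂
  have hcf' : algebraMap Qb FN (((A.decompositionSubgroup ℚ).subtype τ) c) * (g • f) * k₂.gen
      = k₁.gen := by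
    rw [get_gen_dec N A τ h₁, get_gen_dec N A τ h₂, ← hcf, smul_mul', getm_smul_const_mul]
    rfl
  have hres : getDecRes A τ = RingHom.id _ := getm_getDecRes_of_mem_inertia A τ hτ
  have hk₁s : k₁.spec = h₁.spec := Subtype.ext (by
    show coeffMap (residue A) (coeffMap (getDecHom A τ) u₁) = coeffMap (residue A) u₁
    rw [get_spec_dec, hres, coeffMap_id])
  have hk₂s : k₂.spec = h₂.spec := Subtype.ext (by
    show coeffMap (residue A) (coeffMap (getDecHom A τ) u₂) = coeffMap (residue A) u₂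
    rw [get_spec_dec, hres, coeffMap_id])
  have hgf : g • f ≠ 0 := getm_smul_ne_zero N _ f hf
  have hc' : ((A.decompositionSubgroup ℚ).subtype τ) c ≠ 0 := by
    simpa using hc
  -- the two good elements
  have hU₁ : S18Good N A (coeffMap (getDecHom A τ) u₁ * u₂) := k₁.mul h₂
  have hU₂ : S18Good N A (coeffMap (getDecHom A τ) u₂ * u₁) := k₂.mul h₁
  have hk₁g := k₁.gen_ne_zero (hk₁s ▸ hs₁)
  have hk₂g := k₂.gen_ne_zero (hk₂s ▸ hs₂)
  have hg₁ := h₁.gen_ne_zero hs₁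
  have hg₂ := h₂.gen_ne_zero hs₂
  have key : Pic0.mk (SemilinearAut.degZeroSMulHom g D - D) = 0 := by
    refine getm_zero_of_good N A hℓN hA p hp hpℓ n _ _ _ hU₁ hU₂ ?_ ?_ ?_
    · rw [map_mul, map_mul, get_spec_dec, get_spec_dec, hres, coeffMap_id, coeffMap_id, mul_comm]
    · rw [map_mul, get_spec_dec, hres, coeffMap_id]
      exact mul_ne_zero (fun h => hs₁ (Subtype.ext h)) (fun h => hs₂ (Subtype.ext h))
    · intro P
      have e1 := hD' P
      have e2 := hD P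
      have e3 := getm_ord_of_normal N (g • f) hgf _ _ _ k₁ k₂ hc' (hk₂s ▸ hs₂) hcf' P
      have e4 := getm_ord_of_normal N f hf c u₁ u₂ h₁ h₂ hc hs₂ hcf P
      rw [S18Good.gen_mul k₁ h₂, S18Good.gen_mul k₂ h₁, P.ord_mul hk₁g hg₂, P.ord_mul hk₂g hg₁,
        AddSubgroupClass.coe_sub, Finsupp.sub_apply, mul_sub, e1, e2, e3, e4]
      ring
  have h2 : getMkHom N (SemilinearAut.degZeroSMulHom g D - D) = 0 := key
  rw [map_sub, sub_eq_zero] at h2
  exact h2

/-! ### Frobenius -/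

theorem getm_coeffMap_injective {R S : Type*} [CommRing R] [CommRing S] (f : R →+* S)
    (hf : Function.Injective f) : Function.Injective (coeffMap f) := by
  intro x y h
  ext k
  have h1 := congrArg (fun z => z.coeff k) h
  simp only [coeffMap_coeff] at h1
  exact hf h1

theorem getm_coeffMap_ne_zero {k : Type*} [Field k] (φ : k →+* k) {w : LaurentSeries k}
    (hw : w ≠ 0) : coeffMap φ w ≠ 0 := by
  intro h
  apply hw
  apply getm_coeffMap_injective φ φ.injective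
  rw [h, map_zero]

set_option maxHeartbeats 1600000 in
theorem getm_frobenius {ℓ : ℕ} [Fact ℓ.Prime] (A : ValuationSubring Qb)
    (hℓN : ¬ ℓ ∣ N) (hA : A.LiesOverPrime ℓ) (p : ℕ) (hp : p.Prime) (hpℓ : p ≠ ℓ)
    (σ : Qb ≃ₐ[ℚ] Qb) (hσ : A.IsFrobeniusAt σ ℓ) (x : JZero N) (n : ℕ)
    (hx : p ^ n • x = 0) :
    σ • σ • x - heckeOperatorBar N ⟨ℓ, Fact.out⟩ (σ • x) + ℓ • x = 0 := by
  obtain ⟨hσD, hfrob⟩ := hσ
  set τ : A.decompositionSubgroup ℚ := ⟨σ, hσD⟩ with hτdef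
  have hφ : ∀ y, getDecRes A τ y = y ^ ℓ := fun y => hfrob y
  set φ := getDecRes A τ with hφdef
  haveI : CharP (ResidueField A) ℓ := s18ac_charP A hA
  haveI : NeZero ℓ := ⟨(Fact.out : ℓ.Prime).ne_zero⟩
  obtain ⟨D, rfl⟩ := Pic0.mk_surjective x
  obtain ⟨f, hf, hD⟩ := getm_exists_fun N D (p ^ n) hx
  obtain ⟨c, u₁, u₂, h₁, h₂, hc, hs₁, hs₂, hcf⟩ := get_gn_normal N A hℓN hA f hf
  -- conjugates of the pair
  have hD' := getm_smul_pair N σ D _ f hD
  have hD'' := getm_smul_pair N σ _ _ _ hD'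
  have hgf : getAut N σ • f ≠ 0 := getm_smul_ne_zero N σ f hf
  have hggf : getAut N σ • (getAut N σ • f) ≠ 0 := getm_smul_ne_zero N σ _ hgf
  -- good elements
  have k₁ := get_good_dec N A τ h₁
  have k₂ := get_good_dec N A τ h₂
  have m₁ := get_good_dec N A τ k₁
  have m₂ := get_good_dec N A τ k₂
  have hcf' : algebraMap Qb FN (σ c) * (getAut N σ • f) * k₂.gen = k₁.gen := by
    rw [get_gen_dec N A τ h₁, get_gen_dec N A τ h₂, ← hcf, smul_mul', getm_smul_const_mul]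
  have hcf'' : algebraMap Qb FN (σ (σ c)) * (getAut N σ • (getAut N σ • f)) * m₂.gen = m₁.gen := by
    rw [get_gen_dec N A τ k₁, get_gen_dec N A τ k₂, ← hcf', smul_mul', getm_smul_const_mul]
  have hc' : σ c ≠ 0 := by simpa using hc
  have hc'' : σ (σ c) ≠ 0 := by simpa using hc
  -- reductions
  have hū₁ : coeffMap (residue A) u₁ ≠ 0 := fun h => hs₁ (Subtype.ext h)
  have hū₂ : coeffMap (residue A) u₂ ≠ 0 := fun h => hs₂ (Subtype.ext h)
  have rk₁ : coeffMap (residue A) (coeffMap (getDecHom A τ) u₁) = coeffMap φ (coeffMap (residue A) u₁) :=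
    get_spec_dec A τ u₁
  have rk₂ : coeffMap (residue A) (coeffMap (getDecHom A τ) u₂) = coeffMap φ (coeffMap (residue A) u₂) :=
    get_spec_dec A τ u₂
  have rm₁ : coeffMap (residue A) (coeffMap (getDecHom A τ) (coeffMap (getDecHom A τ) u₁)) =
      coeffMap φ (coeffMap φ (coeffMap (residue A) u₁)) := by
    rw [get_spec_dec A τ, rk₁]
  have rm₂ : coeffMap (residue A) (coeffMap (getDecHom A τ) (coeffMap (getDecHom A τ) u₂)) =
      coeffMap φ (coeffMap φ (coeffMap (residue A) u₂)) := by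
    rw [get_spec_dec A τ, rk₂]
  -- the Hecke operator
  obtain ⟨E, hTE, hTf0, hE⟩ := gff_hecke_class N ℓ Fact.out _ (p ^ n) _ hgf hD'
  obtain ⟨V₁, hV₁, hV₁g, hV₁r⟩ := gcj_norm_congr N hℓN A hA φ hφ _ k₁
  obtain ⟨V₂, hV₂, hV₂g, hV₂r⟩ := gcj_norm_congr N hℓN A hA φ hφ _ k₂
  rw [rk₁, get_qExpand_frobenius φ hφ] at hV₁r
  rw [rk₂, get_qExpand_frobenius φ hφ] at hV₂r
  have hT : gHeckeFun N ℓ (algebraMap Qb FN (σ c)) * gHeckeFun N ℓ (getAut N σ • f) * hV₂.gen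
      = hV₁.gen := by
    rw [hV₁g, hV₂g, ← map_mul, ← map_mul, hcf']
  -- nonvanishing
  have hφφ₁ : coeffMap φ (coeffMap φ (coeffMap (residue A) u₁)) ≠ 0 :=
    getm_coeffMap_ne_zero φ (getm_coeffMap_ne_zero φ hū₁)
  have hφφ₂ : coeffMap φ (coeffMap φ (coeffMap (residue A) u₂)) ≠ 0 :=
    getm_coeffMap_ne_zero φ (getm_coeffMap_ne_zero φ hū₂)
  have hV₁s : hV₁.spec ≠ 0 := by
    intro h
    have h' : coeffMap (residue A) V₁ = 0 := congrArg Subtype.val h
    rw [hV₁r] at h'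
    exact mul_ne_zero (pow_ne_zero _ hū₁) hφφ₁ h'
  have hV₂s : hV₂.spec ≠ 0 := by
    intro h
    have h' : coeffMap (residue A) V₂ = 0 := congrArg Subtype.val h
    rw [hV₂r] at h'
    exact mul_ne_zero (pow_ne_zero _ hū₂) hφφ₂ h'
  have hm₁s : m₁.spec ≠ 0 := by
    intro h
    have h' : coeffMap (residue A) (coeffMap (getDecHom A τ) (coeffMap (getDecHom A τ) u₁)) = 0 :=
      congrArg Subtype.val h
    rw [rm₁] at h'
    exact hφφ₁ h'
  have hm₂s : m₂.spec ≠ 0 := by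
    intro h
    have h' : coeffMap (residue A) (coeffMap (getDecHom A τ) (coeffMap (getDecHom A τ) u₂)) = 0 :=
      congrArg Subtype.val h
    rw [rm₂] at h'
    exact hφφ₂ h'
  have hg₁ := h₁.gen_ne_zero hs₁
  have hg₂ := h₂.gen_ne_zero hs₂
  have hm₁g := m₁.gen_ne_zero hm₁s
  have hm₂g := m₂.gen_ne_zero hm₂s
  have hV₁g0 := hV₁.gen_ne_zero hV₁s
  have hV₂g0 := hV₂.gen_ne_zero hV₂s
  -- the two good elements
  have hW₁ := (m₁.mul hV₂).mul (h₁.pow ℓ)
  have hW₂ := (m₂.mul hV₁).mul (h₂.pow ℓ)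
  have key : Pic0.mk (SemilinearAut.degZeroSMulHom (getAut N σ)
      (SemilinearAut.degZeroSMulHom (getAut N σ) D) - E + ℓ • D) = 0 := by
    refine getm_zero_of_good N A hℓN hA p hp hpℓ n _ _ _ hW₁ hW₂ ?_ ?_ ?_
    · rw [map_mul, map_mul, map_pow, map_mul, map_mul, map_pow, rm₁, rm₂, hV₁r, hV₂r]
      ring
    · rw [map_mul, map_mul, map_pow, rm₁, hV₂r]
      exact mul_ne_zero (mul_ne_zero hφφ₁ (mul_ne_zero (pow_ne_zero _ hū₂) hφφ₂))
        (pow_ne_zero _ hū₁)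
    · intro P
      have e1 := hD'' P
      have e2 := hE P
      have e3 := hD P
      have e4 := getm_ord_of_normal N _ hggf _ _ _ m₁ m₂ hc'' hm₂s hcf'' P
      have e5 := getm_ord_of_normal N f hf c u₁ u₂ h₁ h₂ hc hs₂ hcf P
      have e6 : P.ord (gHeckeFun N ℓ (getAut N σ • f)) = P.ord hV₁.gen - P.ord hV₂.gen := by
        have hTc0 : gHeckeFun N ℓ (algebraMap Qb FN (σ c)) ≠ 0 := by
          intro h0
          apply hV₁g0
          rw [← hT, h0, zero_mul, zero_mul]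
        rw [← hT, P.ord_mul (mul_ne_zero hTc0 hTf0) hV₂g0, P.ord_mul hTc0 hTf0,
          getm_hecke_const_ord]
        ring
      rw [S18Good.gen_mul (m₁.mul hV₂) (h₁.pow ℓ), S18Good.gen_mul m₁ hV₂, S18Good.gen_pow h₁ ℓ,
        S18Good.gen_mul (m₂.mul hV₁) (h₂.pow ℓ), S18Good.gen_mul m₂ hV₁, S18Good.gen_pow h₂ ℓ,
        P.ord_mul (mul_ne_zero hm₁g hV₂g0) (pow_ne_zero _ hg₁), P.ord_mul hm₁g hV₂g0,
        P.ord_mul (mul_ne_zero hm₂g hV₁g0) (pow_ne_zero _ hg₂), P.ord_mul hm₂g hV₁g0,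
        getm_ord_pow, getm_ord_pow]
      have e7 : ((SemilinearAut.degZeroSMulHom (getAut N σ)
          (SemilinearAut.degZeroSMulHom (getAut N σ) D) - E + ℓ • D :
            Divisor.degZero (K := Qb) (F := FN)) : Divisor Qb FN) P =
          ((SemilinearAut.degZeroSMulHom (getAut N σ)
            (SemilinearAut.degZeroSMulHom (getAut N σ) D) :
              Divisor.degZero (K := Qb) (F := FN)) : Divisor Qb FN) P
          - (E : Divisor Qb FN) P + (ℓ : ℤ) * (D : Divisor Qb FN) P := by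
        simp
      rw [e7, mul_add, mul_sub, e1, e2, e6, e4]
      have e8 : ((p ^ n : ℕ) : ℤ) * ((ℓ : ℤ) * (D : Divisor Qb FN) P) =
          (ℓ : ℤ) * (((p ^ n : ℕ) : ℤ) * (D : Divisor Qb FN) P) := by ring
      rw [e8, e3, e5]
      ring
  have h2 : getMkHom N (SemilinearAut.degZeroSMulHom (getAut N σ)
      (SemilinearAut.degZeroSMulHom (getAut N σ) D) - E + ℓ • D) = 0 := key
  rw [map_add, map_sub, map_nsmul] at h2
  rw [getm_smul_mk, getm_smul_mk, hTE]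
  exact h2

/-! ### The top statement -/

/-- (ES-TORS) inertia at `ℓ ∤ N p` acts trivially on `J₀(N)[p^∞]`, and every Frobenius lift
satisfies `σ² - T_ℓ σ + ℓ = 0` there.  (= Prelude `UnramifiedOutside` + `FrobeniusQuadratic`.) -/
theorem g_es_torsion (N : ℕ) [NeZero N] (p : ℕ) (hp : p.Prime) (ℓ : ℕ) (hℓ : ℓ.Prime)
    (hℓN : ¬ ℓ ∣ N) (hℓp : ℓ ≠ p)
    (A : ValuationSubring (AlgebraicClosure ℚ)) (hA : A.LiesOverPrime ℓ) :
    (∀ σ ∈ A.inertiaSubgroupIn ℚ, ∀ x : JZero N, (∃ n : ℕ, p ^ n • x = 0) → σ • x = x) ∧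
    (∀ σ : AlgebraicClosure ℚ ≃ₐ[ℚ] AlgebraicClosure ℚ, A.IsFrobeniusAt σ ℓ →
      ∀ x : JZero N, (∃ n : ℕ, p ^ n • x = 0) →
        σ • σ • x - heckeOperatorBar N ⟨ℓ, hℓ⟩ (σ • x) + ℓ • x = 0) := by
  haveI : Fact ℓ.Prime := ⟨hℓ⟩
  refine ⟨fun σ hσ x ⟨n, hn⟩ => getm_inertia N A hℓN hA p hp hℓp.symm σ hσ x n hn,
    fun σ hσ x ⟨n, hn⟩ => getm_frobenius N A hℓN hA p hp hℓp.symm σ hσ x n hn⟩

end Fermat.Agent.G
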